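import Mathlib
import Fermat.Agent.S13.Defs
import Fermat.Prelude.Def_FLTPrelim_Ramification
import Fermat.Agent.S13.Mink.Main

/-!
# S13 interface: Minkowski (owner: the Global block architect; statement FROZEN by helper24).

A normal subgroup `N` of `Gal(ℚ̄/ℚ)` that contains the fixing subgroup of a finite extension and,
for every prime `ℓ`, the inertia group of at least one valuation subring above `ℓ`, is everything.
(The fixed field of `N` is a finite Galois extension of `ℚ` unramified everywhere:
`NumberField.exists_not_isUnramifiedAt_int_of_isGalois` + `Fermat.Agent.S14.Bridge.ValLift.lift_inertia`.)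
-/

set_option autoImplicit false

namespace Fermat.Agent.S13

theorem mink (N : Subgroup Gal) (hN : N.Normal) (E : IntermediateField ℚ Qb)
    [FiniteDimensional ℚ E] (hE : E.fixingSubgroup ≤ N)
    (h : ∀ ℓ : ℕ, ℓ.Prime →
      ∃ A : ValuationSubring Qb, A.LiesOverPrime ℓ ∧ A.inertiaSubgroupIn ℚ ≤ N) :
    N = ⊤ :=
  Mink.eq_top_of_inertia_le N hN (Subgroup.isOpen_mono hE E.fixingSubgroup_isOpen) h

end Fermat.Agent.S13
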