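import Mathlib
import Fermat.Agent.S05.Core.Defs
import Fermat.Agent.S13.DP.Main

/-!
# S13 / interface DP: division polynomials and torsion ("first-period theorem").
Statement FROZEN by helper20 (chief).  Owner of the proof: the DP block architect.

`legendre α β` is the Weierstrass curve `Y² = X (X - α) (X - β)`; `Fermat.Agent.S05.Model K α β G`
is the abstract group of its points (see `Fermat/Agent/S05/Core/Defs.lean`, and
`Fermat/Agent/S05/Core/Formulas.lean` for the sum/product formulas of `X(P ± Q)`).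

`DP_torsion`: if `k • P ≠ 0` for `1 ≤ k < n` (`n ≥ 5` odd) then `preΨ'ₙ(X(P)) = 0 ↔ n • P = 0`.
-/

set_option autoImplicit false

namespace Fermat.Agent.S13

open Fermat.Agent.S05 Polynomial

/-- The Weierstrass curve `Y² = X (X - α) (X - β)`. -/
def legendre {R : Type*} [CommRing R] (α β : R) : WeierstrassCurve R :=
  { a₁ := 0, a₂ := -(α + β), a₃ := 0, a₄ := α * β, a₆ := 0 }

/-- Division polynomial criterion: if `P` has coordinates `(X, Y)` and `k • P ≠ 0` for all
`1 ≤ k < n` (`n ≥ 5` odd), then `preΨ'ₙ(X) = 0 ↔ n • P = 0`. -/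
theorem DP_torsion {K : Type*} [Field K] (h2 : (2 : K) ≠ 0) {α β : K} {G : Type*}
    [AddCommGroup G] (M : Model K α β G) {P : G} {X Y : K} (hP : M.coord P = some (X, Y))
    {n : ℕ} (hn : Odd n) (hn5 : 5 ≤ n) (h : ∀ k : ℕ, 1 ≤ k → k < n → k • P ≠ 0) :
    ((legendre α β).preΨ' n).eval X = 0 ↔ n • P = 0 :=
  DP.main h2 M hP hn hn5 h

end Fermat.Agent.S13
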