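import Mathlib
import Fermat.Agent.S13.Iface.DP
import Fermat.Agent.S13.DPU.Main

/-!
# S13 / interface DPUnit: the value of `preΨ'ₙ` at a `2`-torsion abscissa.
Statement FROZEN by helper20 (chief).

For `n` odd, `preΨ'ₙ(β) = ± (Ψ₃(β)) ^ ((n² - 1) / 8)` and `Ψ₃(β) = -(β (β - α))²` (because
`Ψ₂Sq(β) = 4 β (β - α) (β - β) = 0`, and `preNormEDS 0 c d` at odd indices is `± c ^ k`).
In particular it is a unit for any valuation for which `β` and `α - β` are units.
-/

set_option autoImplicit false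

namespace Fermat.Agent.S13

open Polynomial

theorem DP_unit {K : Type*} [Field K] {Γ₀ : Type*} [LinearOrderedCommGroupWithZero Γ₀]
    (v : Valuation K Γ₀) {α β : K} (hβ : v β = 1) (hαβ : v (α - β) = 1) {n : ℕ} (hn : Odd n) :
    v (((legendre α β).preΨ' n).eval β) = 1 :=
  DPU.dp_unit v hβ hαβ hn

end Fermat.Agent.S13
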