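import Mathlib
import Fermat.Agent.S05.Core.Defs
import Fermat.Agent.S13.Iface.DP
import Fermat.Agent.S13.Iface.DPUnit
import Fermat.Agent.S13.PCore.Count
import Fermat.Agent.S13.PCore.SumLine
import Fermat.Agent.S13.PCore.Exists

/-!
# S13 / interface PCore: consequences of the division polynomial `preΨ'_p` for an abstract
`Model` (`Y² = X (X - α) (X - β)`), `p ≥ 5` prime.  Statements FROZEN by helper20 (chief).

* `Model.torsion_finite`: at most `p²` points of order dividing `p`.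
* `Model.sum_formula`: `v p * ∏_{x ∈ S} v x ≤ 1` for distinct non-integral abscissas of
  `p`-torsion points (they are roots of `preΨ'_p`, integral coefficients, leading coefficient `p`).
* `Model.exists_torsion`: a nonzero `p`-torsion point exists if the residue characteristic is `p`
  (`preΨ'_p` has leading coefficient `p` but the unit value `DP_unit` at `β`, hence a non-integral
  root; the corresponding point lies in the kernel of reduction, which has no torsion prime to `p`: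
  `Fermat.Agent.S05.Model.G1_torsion_free`).
* `Model.line_eq`: a subgroup `N ≠ 0` of `p`-torsion points inside the kernel of reduction `G1`
  whose set of abscissas has rational product contains all `p`-torsion points of `G1`.
-/

set_option autoImplicit false

namespace Fermat.Agent.S13

open Fermat.Agent.S05

theorem Model.torsion_finite {K : Type*} [Field K] {α β : K} {G : Type*} [AddCommGroup G]
    (M : Model K α β G) {p : ℕ} (hp : p.Prime) (hp5 : 5 ≤ p) (h2 : (2 : K) ≠ 0)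
    (hpK : (p : K) ≠ 0) :
    {Q : G | p • Q = 0}.Finite ∧ {Q : G | p • Q = 0}.ncard ≤ p ^ 2 := by
  exact PCore.torsion_finite M hp hp5 h2 hpK

theorem Model.sum_formula {K : Type*} [Field K] {α β : K} {G : Type*} [AddCommGroup G]
    (M : Model K α β G) {Γ₀ : Type*} [LinearOrderedCommGroupWithZero Γ₀] (v : Valuation K Γ₀)
    (hvα : v α ≤ 1) (hvβ : v β ≤ 1) {p : ℕ} (hp : p.Prime) (hp5 : 5 ≤ p) (h2 : (2 : K) ≠ 0)
    (hpK : (p : K) ≠ 0) (S : Finset K)
    (hS : ∀ x ∈ S, 1 < v x ∧ ∃ (Q : G) (Y : K), M.coord Q = some (x, Y) ∧ p • Q = 0) :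
    v (p : K) * ∏ x ∈ S, v x ≤ 1 := by
  exact PCore.sum_formula M v hvα hvβ hp hp5 h2 hpK S hS

theorem Model.exists_torsion {K : Type*} [Field K] [IsAlgClosed K] {α β : K} {G : Type*}
    [AddCommGroup G] (M : Model K α β G) {Γ₀ : Type*} [LinearOrderedCommGroupWithZero Γ₀]
    (v : Valuation K Γ₀) (h2 : v 2 = 1) (hvα : v α ≤ 1) (hvβ : v β = 1) (hvαβ : v (α - β) = 1)
    {p : ℕ} (hp : p.Prime) (hp5 : 5 ≤ p) (hp0 : (p : K) ≠ 0) (hvp : v (p : K) < 1) :
    ∃ Q : G, Q ≠ 0 ∧ p • Q = 0 := by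
  exact PCore.exists_torsion M v h2 hvα hvβ hvαβ hp hp5 hp0 hvp

theorem Model.line_eq {K : Type*} [Field K] [CharZero K] {α β : K} {G : Type*} [AddCommGroup G]
    (M : Model K α β G) {Γ₀ : Type*} [LinearOrderedCommGroupWithZero Γ₀] (v : Valuation K Γ₀)
    (hvα : v α ≤ 1) (hvβ : v β ≤ 1) {p : ℕ} (hp : p.Prime) (hp5 : 5 ≤ p)
    (hvQ : ∀ q : ℚ, 1 < v (q : K) → 1 ≤ v (p : K) * v (q : K))
    (N : AddSubgroup G) (hNp : ∀ Q ∈ N, p • Q = 0) (hN0 : ∃ Q ∈ N, Q ≠ 0)
    (hNG1 : ∀ Q ∈ N, Q ∈ M.G1 v)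
    (S : Finset K) (hS : ∀ x : K, x ∈ S ↔ ∃ Q ∈ N, ∃ Y : K, M.coord Q = some (x, Y))
    (hrat : ∃ q : ℚ, (q : K) = ∏ x ∈ S, x) :
    ∀ Q : G, p • Q = 0 → Q ∈ M.G1 v → Q ∈ N := by
  exact PCore.line_eq M v hvα hvβ hp hp5 hvQ N hNp hN0 hNG1 S hS hrat

end Fermat.Agent.S13
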