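import Mathlib
import Fermat.Agent.S13.Defs
import Fermat.Prelude.Def_FLTPrelim_Ramification
import Fermat.Agent.S13.PFrey.Main

/-!
# S13 interface: the local dichotomy at `p` (owner: the PAdic block architect; statement FROZEN
by helper24).

`N` is a Galois-stable subgroup of order `p` of the `p`-torsion of the Frey curve, `A` a valuation
subring of `ℚ̄` above `p`.  Then either the inertia group of `A` acts trivially on `E[p]/N`, or it
acts trivially on `N`.
-/

set_option autoImplicit false

open WeierstrassCurve WeierstrassCurve.Affine WeierstrassCurve.Affine.Point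

namespace Fermat.Agent.S13

open Fermat.Agent.S05 (freyQb)

theorem padic_dichotomy (P : FreyPackage) (A : ValuationSubring Qb) (hA : A.LiesOverPrime P.p)
    (N : AddSubgroup (freyQb P).Point) (hNp : ∀ Q ∈ N, P.p • Q = 0)
    (hcard : Nat.card N = P.p) (hstab : ∀ (σ : Gal) (Q : (freyQb P).Point), Q ∈ N → σ • Q ∈ N) :
    (∀ σ ∈ A.inertiaSubgroupIn ℚ, ∀ Q : (freyQb P).Point, P.p • Q = 0 → σ • Q - Q ∈ N) ∨
      (∀ σ ∈ A.inertiaSubgroupIn ℚ, ∀ Q ∈ N, σ • Q = Q) :=
  PFrey.padic_dichotomy' P A hA N hNp hcard hstab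

end Fermat.Agent.S13
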