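import Mathlib
import Fermat.Agent.S13.TwoAdic.XDefs
import Fermat.Agent.S05.Core.Iter
import Fermat.Agent.S13.TwoAdic.XCoreH.UR
import Fermat.Agent.S13.TwoAdic.XCoreH.G1
import Fermat.Agent.S13.TwoAdic.XCoreH.NoTorsion

/-!
# S13 interface: the abstract `x`-only core without `v 2 = 1`
(owner: the XCore sub-block architect; statements FROZEN by helper24).

Port of S05's core (`Fermat/Agent/S05/Core/{G1,NoTorsion,URA,URB,URC,URD,URD3,Dbl,URAll}.lean`)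
from `Model` (with `h2 : v 2 = 1`, `v α < 1`, `v β = 1`) to `XModel` (no hypothesis on `v 2`;
`v b₂ = 1` resp. `≤ 1`, `v a₄ < 1` resp. `≤ 1`).  Dictionary: `a₄ = α β`, `b₂ = -4 (α + β)`.
In all formulas the literal constants `2`, `4` only satisfy `v 2 ≤ 1`, `v 4 ≤ 1`; the dominant
terms are the ones with the unit `b₂`.
-/

set_option autoImplicit false

namespace Fermat.Agent.S13.TwoAdic

open Fermat.Agent.S05 (fold qt clip URConcl)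

variable {K : Type*} [Field K] {Γ₀ : Type*} [LinearOrderedCommGroupWithZero Γ₀]

/-- Field-level unordered rule (numerically verified by helper24 on 3·10⁵ random 2-adic and
3-adic instances). -/
theorem ur_field2 {v : Valuation K Γ₀} {b₂ a₄ x₁ x₂ r₁ r₂ : K}
    (H : URHyp2 v b₂ a₄ x₁ x₂ r₁ r₂) : URConcl (v a₄) (v x₁) (v x₂) (v r₁) (v r₂) :=
  XCoreH.ur_field2 H

/-- Field-level doubling rule: the clipped valuation of `x(2P)` is `fold ε (s²)`, `s` the clipped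
valuation of `x(P)` (numerically verified by helper24). -/
theorem dbl_field2 (v : Valuation K Γ₀) {b₂ a₄ x : K} (hb₂ : v b₂ = 1) (ha₄0 : a₄ ≠ 0)
    (ha₄ : v a₄ < 1) (hden : 4 * x ^ 3 + b₂ * x ^ 2 + 4 * a₄ * x ≠ 0) :
    clip (v a₄) (v ((x ^ 2 - a₄) ^ 2 / (4 * x ^ 3 + b₂ * x ^ 2 + 4 * a₄ * x))) =
      fold (v a₄) (clip (v a₄) (v x) * clip (v a₄) (v x)) :=
  XCoreH.dbl_field2 v hb₂ ha₄0 ha₄ hden

namespace XModel

variable {b₂ a₄ : K} {G : Type*} [AddCommGroup G] (M : XModel K b₂ a₄ G) (v : Valuation K Γ₀)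

theorem G1_neg {P : G} (hP : P ∈ M.G1 v) : -P ∈ M.G1 v :=
  XCoreH.G1_neg M v hP

theorem G1_add (hb₂ : v b₂ ≤ 1) (ha₄ : v a₄ ≤ 1) {P Q : G} (hP : P ∈ M.G1 v)
    (hQ : Q ∈ M.G1 v) : P + Q ∈ M.G1 v :=
  XCoreH.G1_add M v hb₂ ha₄ hP hQ

theorem G1_sub (hb₂ : v b₂ ≤ 1) (ha₄ : v a₄ ≤ 1) {P Q : G} (hP : P ∈ M.G1 v)
    (hQ : Q ∈ M.G1 v) : P - Q ∈ M.G1 v :=
  XCoreH.G1_sub M v hb₂ ha₄ hP hQ

/-- The kernel of reduction has no `n`-torsion for `n` a unit (`ξ(nR) ≡ n² ξ(R)` mod `ξ(R) 𝔪`,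
`ξ = 1/x`). -/
theorem G1_torsion_free (hb₂ : v b₂ ≤ 1) (ha₄ : v a₄ ≤ 1) {R : G} (hR : R ∈ M.G1 v) {n : ℕ}
    (hn : v (n : K) = 1) (hnR : n • R = 0) : R = 0 :=
  XCoreH.G1_torsion_free M v hb₂ ha₄ hR hn hnR

/-- The unordered parallelogram rule for the level function (multiplicative case), same shape as
`Fermat.Agent.S05.Model.ur`. -/
theorem ur (hb₂ : v b₂ = 1) (ha₄0 : a₄ ≠ 0) (ha₄ : v a₄ < 1) (P Q : G) :
    (M.lvl v (P + Q) = fold (v a₄) (M.lvl v P * M.lvl v Q) ∧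
        M.lvl v (P - Q) = qt (M.lvl v P) (M.lvl v Q)) ∨
      (M.lvl v (P + Q) = qt (M.lvl v P) (M.lvl v Q) ∧
        M.lvl v (P - Q) = fold (v a₄) (M.lvl v P * M.lvl v Q)) :=
  XCoreH.ur M v hb₂ ha₄0 ha₄ P Q

/-- Levels of torsion points (from `ur` and `Fermat.Agent.S05.iter`). -/
theorem lvl_pow_of_torsion (hb₂ : v b₂ = 1) (ha₄0 : a₄ ≠ 0) (ha₄ : v a₄ < 1) (P : G) (n : ℕ)
    (hn : n • P = 0) : ∃ k : ℤ, M.lvl v P ^ n = v a₄ ^ (2 * k) :=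
  XCoreH.lvl_pow_of_torsion M v hb₂ ha₄0 ha₄ P n hn

end XModel

end Fermat.Agent.S13.TwoAdic
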