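import Mathlib
import Fermat.Agent.S13.Defs
import Fermat.Prelude.Def_FLTPrelim_Ramification
import Fermat.Agent.S13.TwoAdic.Unipotent
import Fermat.Agent.S13.TwoAdic.Rational

/-!
# S13 interface: the prime `2` (owner: the TwoAdic block architect; statements FROZEN by helper24).

* `two_unipotent`: an element `σ` of an inertia group above `2` satisfies `(σ - 1)² = 0` on `E[p]`.
* `no_rational_torsion`: the Frey curve has no nonzero `ℚ`-rational point of order `p`.
-/

set_option autoImplicit false

open WeierstrassCurve WeierstrassCurve.Affine WeierstrassCurve.Affine.Point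

namespace Fermat.Agent.S13

open Fermat.Agent.S05 (freyQb)

theorem two_unipotent (P : FreyPackage) (A : ValuationSubring Qb) (hA : A.LiesOverPrime 2)
    (σ : Gal) (hσ : σ ∈ A.inertiaSubgroupIn ℚ) (Q : (freyQb P).Point) (hQ : P.p • Q = 0) :
    σ • (σ • Q - Q) = σ • Q - Q :=
  TwoAdic.two_unipotent' P A hA σ hσ Q hQ

theorem no_rational_torsion (P : FreyPackage) (Q : (freyQb P).Point) (hQ : P.p • Q = 0)
    (hfix : ∀ σ : Gal, σ • Q = Q) : Q = 0 :=
  TwoAdic.no_rational_torsion' P Q hQ hfix

end Fermat.Agent.S13
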