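import Mathlib
import Fermat.Agent.S13.Defs
import Fermat.Agent.S13.Iface.PCore
import Fermat.Agent.S13.PFrey.Main

/-!
# S13 interface: the `p`-torsion of the Frey curve over `ℚ̄` is nonzero and has at most `p²`
elements (owner: the Ladder block architect; statements FROZEN by helper24).
Both follow from `Iface/PCore.lean` (`Model.exists_torsion`, `Model.torsion_finite`) applied to a
`Fermat.Agent.S05.freyModel` (case analysis as in `Fermat/Agent/S05/Final.lean`, at a prime above `p`).
-/

set_option autoImplicit false

namespace Fermat.Agent.S13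

open Fermat.Agent.S05 (freyQb)

theorem exists_torsion (P : FreyPackage) : ∃ Q : (freyQb P).Point, Q ≠ 0 ∧ P.p • Q = 0 :=
  PFrey.exists_torsion' P

theorem torsion_finite (P : FreyPackage) :
    {Q : (freyQb P).Point | P.p • Q = 0}.Finite ∧
      {Q : (freyQb P).Point | P.p • Q = 0}.ncard ≤ P.p ^ 2 :=
  PFrey.torsion_finite' P

end Fermat.Agent.S13
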